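import Fermat.Agent.R59.ThreeTW
import Fermat.Agent.R59.TateW.TorsionUnr
import Fermat.Agent.R59.NoSq.Setup
import Fermat.Agent.LL.Frey.Modular
import Fermat.Agent.LL.Frey.Lines
import Fermat.Agent.DS.FrobConj

/-!
# S59, unit E: what residual modularity says about the traces on `W[p]`

The traces on `W[p]` are those of the eigenform; hence they do not depend on the Frobenius element
at a prime outside the level, and a prime where `W[p]` is ramified divides the level.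
-/

set_option autoImplicit false
set_option linter.style.haveILetI false
set_option linter.unusedSectionVars false

noncomputable section

namespace Fermat.Agent.R59

open CongruenceSubgroup ModularFormClass
open WeierstrassCurve WeierstrassCurve.Affine.Point
open Fermat.Agent.ConductorMatch (torsRep Pts isElliptic_pts)
open Fermat.Agent.Galois (GQ)
open scoped WeierstrassCurve.Affine

variable (W : WeierstrassCurve ℤ) {p : ℕ} [Fact p.Prime]

/-- The traces on `W[p]` in the basis `b`. -/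
theorem trE_eq_trace (b : Module.Basis (Fin 2) (ZMod p) (ETors W p)) (σ : GQ) :
    trE W p σ = (LinearMap.toMatrixAlgEquiv b (torsRep W p σ)).trace := by
  rw [trE, galoisTrace_def, LinearMap.trace_eq_matrix_trace (ZMod p) b]
  rfl

theorem sq_sub_one_of_trace_det {R : Type*} [CommRing R] {M : Matrix (Fin 2) (Fin 2) R}
    (ht : M.trace = 2) (hd : M.det = 1) : (M - 1) * (M - 1) = 0 := by
  rw [Matrix.trace_fin_two] at ht
  rw [Matrix.det_fin_two] at hd
  ext i j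
  fin_cases i <;> fin_cases j <;> simp [Matrix.mul_apply, Fin.sum_univ_two]
  · linear_combination (M 0 0) * ht - hd
  · linear_combination (M 0 1) * ht
  · linear_combination (M 1 0) * ht
  · linear_combination (M 1 1) * ht - hd

variable {M : ℕ} [NeZero M]

/-- **The traces of a residually modular `W[p]`.** -/
theorem exists_residual_system (hΔ : W.Δ ≠ 0) (hp2 : p ≠ 2)
    (hres : W.IsResiduallyModularOfLevel p M) :
    ∃ (f : CuspForm (Gamma0 M) 2) (𝔪 : Ideal (integralClosure ℤ ℂ)),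
      f.IsNormalizedEigenform ∧ 𝔪.IsMaximal ∧ (p : integralClosure ℤ ℂ) ∈ 𝔪 ∧
      (∀ ℓ : ℕ, ℓ.Prime → W.IsGoodPrimeFor ℓ → ¬ ℓ ∣ M → ℓ ≠ p →
        ∃ a : integralClosure ℤ ℂ, (a : ℂ) = qCoeff ⇑f ℓ ∧
          a - ((W.apOfModel ℓ : ℤ) : integralClosure ℤ ℂ) ∈ 𝔪) ∧
      (∀ ℓ : ℕ, ℓ.Prime → ¬ ℓ ∣ M → ℓ ≠ p →
        ∀ A : ValuationSubring (AlgebraicClosure ℚ), A.LiesOverPrime ℓ →
        ∀ σ : GQ, A.IsFrobeniusAt σ ℓ →
        ∀ A' : ValuationSubring (AlgebraicClosure ℚ), A'.LiesOverPrime ℓ →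
        ∀ σ' : GQ, A'.IsFrobeniusAt σ' ℓ → trE W p σ = trE W p σ') ∧
      (∀ ℓ : ℕ, ℓ.Prime → ¬ ℓ ∣ M → ℓ ≠ p →
        ∀ A : ValuationSubring (AlgebraicClosure ℚ), A.LiesOverPrime ℓ →
        ∀ σ ∈ A.inertiaSubgroupIn ℚ, ∀ g : GQ, trE W p (σ * g) = trE W p g) := by
  classical
  have hp : p.Prime := Fact.out
  haveI := isElliptic_pts W hΔ
  obtain ⟨f, 𝔪, hf, h𝔪, hp𝔪, hcong⟩ := hres
  letI : Field (integralClosure ℤ ℂ ⧸ 𝔪) := Ideal.Quotient.field 𝔪
  haveI : CharP (integralClosure ℤ ℂ ⧸ 𝔪) p := by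
    refine (CharP.charP_iff_prime_eq_zero hp).mpr ?_
    rw [← map_natCast (Ideal.Quotient.mk 𝔪), Ideal.Quotient.eq_zero_iff_mem]
    exact hp𝔪
  set mk := Ideal.Quotient.mk 𝔪
  set ψ := ZMod.castHom (dvd_refl p) (integralClosure ℤ ℂ ⧸ 𝔪)
  obtain ⟨r, ⟨L₁, hL₁, h1⟩, hfrob, hunr, -⟩ := LL.exists_residual_matrix_semistable (p := p) hf mk
  obtain ⟨L₂, hL₂, h2⟩ := exists_eLevel p W
  haveI := hL₁
  haveI := hL₂
  have hall : ∀ g : GQ, (r g).trace = ψ (trE W p g) := by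
    intro g
    obtain ⟨ℓ, hℓ, hbad, A, hA, σ, hσ, τ, hτ⟩ :=
      DS.exists_frobenius_conj (L₁ ⊔ L₂) (insert p (W.Δ.natAbs.primeFactors ∪ M.primeFactors)) g
    simp only [Finset.mem_insert, Finset.mem_union, not_or] at hbad
    have hℓM : ¬ ℓ ∣ M := fun h => hbad.2.2 (Nat.mem_primeFactors.mpr ⟨hℓ, h, NeZero.ne M⟩)
    have hgood : W.IsGoodPrimeFor ℓ := fun h => hbad.2.1
      (Nat.mem_primeFactors.mpr ⟨hℓ, Int.natCast_dvd.mp h, Int.natAbs_ne_zero.mpr hΔ⟩)
    obtain ⟨a, ha, htr, -⟩ := hfrob ℓ hℓ hℓM hbad.1 A hA σ hσ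
    obtain ⟨a', ha', hcg⟩ := hcong ℓ hℓ hgood hℓM hbad.1
    rw [show a = a' from Subtype.ext (ha.trans ha'.symm), (Ideal.Quotient.eq.mpr hcg :
      mk a' = mk ((W.apOfModel ℓ : ℤ) : integralClosure ℤ ℂ)), map_intCast] at htr
    have hE := (trE_frobenius p W hp2 hΔ hℓ hgood hbad.1 hA hσ).1
    have e1 : r g = r (τ * σ * τ⁻¹) := (DS.eq_of_agree r h1 fun x hx =>
      hτ x ((le_sup_left : L₁ ≤ L₁ ⊔ L₂) hx)).symm
    have e2 : trE W p g = trE W p (τ * σ * τ⁻¹) := by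
      refine congrArg (LinearMap.trace (ZMod p) (ETors W p)) (DS.eq_of_agree
        (galoisRepModuleEnd (K := AlgebraicClosure ℚ) ℚ (W.map (Int.castRingHom ℚ)).toAffine p)
        (F := L₂) (fun σ hσ => LinearMap.ext fun x => ?_) fun x hx =>
          (hτ x ((le_sup_right : L₂ ≤ L₁ ⊔ L₂) hx)).symm)
      exact h2 ((IntermediateField.mem_fixingSubgroup_iff L₂ σ).mpr hσ) x
    have e3 : trE W p (τ * σ * τ⁻¹) = trE W p σ := by
      have := trE_conj p W σ τ⁻¹
      rwa [inv_inv] at this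
    have e4 : (r (τ * σ * τ⁻¹)).trace = (r σ).trace := by
      rw [map_mul, map_mul, Matrix.trace_mul_comm, ← mul_assoc, ← map_mul r τ⁻¹ τ, inv_mul_cancel,
        map_one, one_mul]
    rw [e1, e4, htr, e2, e3, hE, map_intCast]
  refine ⟨f, 𝔪, hf, h𝔪, hp𝔪, hcong, fun ℓ hℓ hℓM hℓp A hA σ hσ A' hA' σ' hσ' => ?_,
    fun ℓ hℓ hℓM hℓp A hA σ hσ g => ?_⟩
  · obtain ⟨a, ha, htr, -⟩ := hfrob ℓ hℓ hℓM hℓp A hA σ hσ
    obtain ⟨a', ha', htr', -⟩ := hfrob ℓ hℓ hℓM hℓp A' hA' σ' hσ'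
    refine ψ.injective ?_
    rw [← hall, ← hall, htr, htr', show a = a' from Subtype.ext (ha.trans ha'.symm)]
  · refine ψ.injective ?_
    rw [← hall, ← hall, map_mul, hunr ℓ hℓ hℓM hℓp A hA σ hσ, one_mul]

/-- A prime `q ≠ p` where `W[p]` is ramified divides every level of residual modularity. -/
theorem dvd_level_of_ramified (hΔ : W.Δ ≠ 0) (hW : W.IsSemistableModel) (hp35 : p = 3 ∨ p = 5)
    (hirr : W.ModRepIsIrreducible p) (hres : W.IsResiduallyModularOfLevel p M) {q : ℕ}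
    (hq : q.Prime) (hqp : q ≠ p) (hv : ¬ p ∣ padicValInt q W.Δ) : q ∣ M := by
  classical
  by_contra hqM
  have hp : p.Prime := Fact.out
  have hp2 : p ≠ 2 := by omega
  haveI := isElliptic_pts W hΔ
  obtain ⟨f, 𝔪, -, -, -, -, -, hinv⟩ := exists_residual_system W hΔ hp2 hres
  obtain ⟨A, hA⟩ := Galois.exists_liesOverPrime hq
  obtain ⟨σ, hσ, P, hP, hne⟩ := exists_torsion_moved W hΔ hW hp2 hq hqp hv hA
  have hrk := finrank_eTors p W
  haveI : Module.Finite (ZMod p) (ETors W p) := Module.finite_of_finrank_eq_succ hrk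
  let b := Module.finBasisOfFinrankEq (ZMod p) (ETors W p) hrk
  let R : GQ →* Matrix (Fin 2) (Fin 2) (ZMod p) :=
    (LinearMap.toMatrixAlgEquiv b).toMulEquiv.toMonoidHom.comp (torsRep W p)
  have hline : ∀ e : Fin 2 → ZMod p,
      (∀ g, (R g).mulVec e 0 * e 1 = (R g).mulVec e 1 * e 0) → e = 0 := fun e he => by
    by_contra he0
    refine he0 (torsRep_no_line W hΔ hW hp35 hirr b (RingHom.id (ZMod p)) ⊤ (Or.inl rfl) e
      fun g _ => ?_)
    obtain ⟨t, ht⟩ := LL.eq_smul_of_cross he0 (he g)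
    refine ⟨t, ?_⟩
    rw [show ((LinearMap.toMatrixAlgEquiv b (torsRep W p g)).map (RingHom.id (ZMod p))) = R g from
      Matrix.map_id _, ht]
  obtain ⟨ht, hω⟩ := NoSq.trE_inertia W p hp2 hΔ hW hq hqp hA hσ
  have hu : (R σ - 1) * (R σ - 1) = 0 := sq_sub_one_of_trace_det
    ((trE_eq_trace W b σ).symm.trans ht)
    (((LinearMap.det_toMatrix b _).trans (det_eq_omg p W hp2 hΔ σ)).trans hω)
  have h1 : R σ = 1 := LL.eq_one_of_pairing hline hu fun g => by
    rw [sub_mul, one_mul, Matrix.trace_sub, ← map_mul, sub_eq_zero]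
    exact ((trE_eq_trace W b _).symm.trans (hinv q hq hqM hqp A hA σ hσ g)).trans
      (trE_eq_trace W b g)
  refine hne ?_
  have h2 : torsRep W p σ = 1 := (LinearMap.toMatrixAlgEquiv b).injective (h1.trans (map_one _).symm)
  exact congrArg Subtype.val (LinearMap.congr_fun h2 ⟨P, by
    rw [Submodule.mem_torsionBy_iff, natCast_zsmul]; exact hP⟩)

end Fermat.Agent.R59
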