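import Fermat.Agent.R59.TateW.Main
import Fermat.Agent.R59.TateW.Tres.NotFlat
import Fermat.Agent.R59.Seed.Residual
import Fermat.Agent.LL.Frey.Coeff

/-!
# S59, unit E: the residual representation of `W` over a field of characteristic `p`

It is the base change of the Tate module; its invariants are those of `W[p]`.
-/

set_option autoImplicit false
set_option linter.style.haveILetI false
set_option linter.unusedSectionVars false

noncomputable section

namespace Fermat.Agent.R59

open IsLocalRing Polynomial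
open WeierstrassCurve WeierstrassCurve.Affine.Point
open Fermat.Agent.Deform
open Fermat.Agent.ConductorMatch (Pts isElliptic_pts)
open Fermat.Agent.Galois (GQ)
open Fermat.Agent.MCurve.Flat (HasFlatModel)
open scoped WeierstrassCurve.Affine

variable {W : WeierstrassCurve ℤ} {p : ℕ} [Fact p.Prime] {k : Type} [Field k]
  {ρbar : ResidualGaloisRep k}

theorem isUnit_natCast_of_not_dvd {O : Type} [CommRing O] [IsLocalRing O]
    [CharP (ResidueField O) p] {n : ℤ} (hn : ¬ (p : ℤ) ∣ n) : IsUnit (n : O) := by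
  rw [← residue_ne_zero_iff_isUnit, map_intCast, Ne, CharP.intCast_eq_zero_iff (ResidueField O) p]
  exact hn

theorem rho_eq_one_iff {r : GQ →* Mat2 k} (h : RHasMatrix ρbar r) (σ : GQ) :
    ρbar.ρ σ = 1 ↔ r σ = 1 := by
  obtain ⟨b, hb⟩ := h
  rw [← hb σ]
  refine ⟨fun e => by rw [e]; exact LinearMap.toMatrix_one b, fun e =>
    (LinearMap.toMatrix b b).injective (e.trans (LinearMap.toMatrix_one b).symm)⟩

variable (T : TateData W p) (hΔ : W.Δ ≠ 0) [CharP k p]

/-- The matrices of `W[p]` with coefficients in `k`. -/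
def baseMat : GQ →* Mat2 k :=
  (mapHom (ZMod.castHom (dvd_refl p) k)).comp ((mapHom PadicInt.toZMod).comp T.r)

variable (h : RHasMatrix ρbar (baseMat T))
include h hΔ

theorem trace_baseMat (σ : GQ) :
    LinearMap.trace k ρbar.V (ρbar.ρ σ) = ZMod.castHom (dvd_refl p) k (trE W p σ) := by
  obtain ⟨b, hb⟩ := h
  obtain ⟨b₀, hb₀⟩ := T.rhasMatrix_tors hΔ
  rw [LinearMap.trace_eq_matrix_trace k b, hb,
    show trE W p σ = (LinearMap.toMatrix b₀ b₀ ((torsResidual W p hΔ).ρ σ)).trace by
      rw [← LinearMap.trace_eq_matrix_trace (ZMod p) b₀]; rfl, hb₀]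
  simp only [baseMat, Matrix.trace_fin_two, map_add]
  rfl

theorem det_baseMat (hp2 : p ≠ 2) (σ : GQ) :
    LinearMap.det (ρbar.ρ σ) = ZMod.castHom (dvd_refl p) k (omg p σ) := by
  haveI := isElliptic_pts W hΔ
  obtain ⟨b, hb⟩ := h
  obtain ⟨b₀, hb₀⟩ := T.rhasMatrix_tors hΔ
  rw [← LinearMap.det_toMatrix b, hb,
    show omg p σ = (LinearMap.toMatrix b₀ b₀ ((torsResidual W p hΔ).ρ σ)).det by
      rw [LinearMap.det_toMatrix]; exact (det_eq_omg p W hp2 hΔ σ).symm, hb₀, RingHom.map_det]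
  rfl

theorem charpoly_baseMat (hp2 : p ≠ 2) (σ : GQ) :
    LinearMap.charpoly (ρbar.ρ σ) = X ^ 2 - C (ZMod.castHom (dvd_refl p) k (trE W p σ)) * X +
      C (ZMod.castHom (dvd_refl p) k (omg p σ)) := by
  obtain ⟨b, hb⟩ := id h
  rw [← LinearMap.charpoly_toMatrix (ρbar.ρ σ) b, Matrix.charpoly_fin_two,
    ← LinearMap.trace_eq_matrix_trace k b, LinearMap.det_toMatrix, trace_baseMat T hΔ h,
    det_baseMat T hΔ h hp2]

theorem unramified_iff_tors {q : ℕ} :
    ρbar.IsUnramifiedAt q ↔ (torsResidual W p hΔ).IsUnramifiedAt q := by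
  refine forall_congr' fun A => forall_congr' fun _ => forall_congr' fun σ =>
    forall_congr' fun _ => ?_
  rw [rho_eq_one_iff h, rho_eq_one_iff (T.rhasMatrix_tors hΔ)]
  refine ⟨fun e => ?_, fun e => ?_⟩
  · refine Matrix.map_injective (ZMod.castHom (dvd_refl p) k).injective ?_
    refine Eq.trans ?_ (Matrix.map_one _ (_root_.map_zero _) (map_one _)).symm
    exact e
  · show (mapHom (ZMod.castHom (dvd_refl p) k)) (((mapHom PadicInt.toZMod).comp T.r) σ) = 1
    rw [e, map_one]

/-- A very ramified `W[p]` gives a representation which is not flat. -/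
theorem not_isFlatAt_baseMat [Finite k] (hW : W.IsSemistableModel) (hp35 : p = 3 ∨ p = 5)
    (hmul : (p : ℤ) ∣ W.Δ) (hv : ¬ p ∣ padicValInt p W.Δ) :
    ¬ (GaloisRepAdic.ofResidualGaloisRep ρbar).IsFlatAt p := by
  classical
  intro hfl
  haveI := isElliptic_pts W hΔ
  haveI : Finite (k ⧸ (⊥ : Ideal k)) := Finite.of_surjective _ Ideal.Quotient.mk_surjective
  set ρ := GaloisRepAdic.ofResidualGaloisRep ρbar
  set S := (⊥ : Ideal k) • (⊤ : Submodule k ρ.V) with hS
  obtain ⟨H, iH, iA, hfin, hflat, hcc, e, he1, he2⟩ := hfl.2 ⊥ inferInstance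
  obtain ⟨bk, hbk⟩ := h
  obtain ⟨b₀, hb₀⟩ := T.rhasMatrix_tors hΔ
  haveI : Finite ρ.V := Module.finite_of_finite k
  haveI : Finite (ρ.V ⧸ S) := Finite.of_surjective S.mkQ (Submodule.mkQ_surjective S)
  letI actV : DistribMulAction GQ (ρ.V ⧸ S) :=
    { smul := fun σ x => ρ.levelAction ⊥ σ x
      one_smul := fun x => Submodule.Quotient.induction_on _ x fun v => by
        show Submodule.Quotient.mk (ρ.ρ 1 v) = _
        rw [map_one, Module.End.one_apply]
      mul_smul := fun σ τ x => Submodule.Quotient.induction_on _ x fun v => by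
        show Submodule.Quotient.mk (ρ.ρ (σ * τ) v) = Submodule.Quotient.mk (ρ.ρ σ (ρ.ρ τ v))
        rw [map_mul, Module.End.mul_apply]
      smul_zero := fun σ => _root_.map_zero (ρ.levelAction ⊥ σ)
      smul_add := fun σ u v => map_add (ρ.levelAction ⊥ σ) u v }
  have hmodel : HasFlatModel (ρ.V ⧸ S) p :=
    ⟨H, iH, iA, hfin, hflat, hcc, e, he1, fun σ f g hfg => he2 σ f g hfg⟩
  set ψ := ZMod.castHom (dvd_refl p) k
  let vec : (torsResidual W p hΔ).V →+ ρbar.V :=
    AddMonoidHom.mk' (fun P => ∑ i, ψ (b₀.repr P i) • bk i) fun P P' => by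
      simp only [map_add, Finsupp.add_apply, add_smul, Finset.sum_add_distrib]
  have hvec : ∀ (σ : GQ) P, vec ((torsResidual W p hΔ).ρ σ P) = ρbar.ρ σ (vec P) := fun σ P => by
    refine bk.ext_elem fun i => ?_
    have h1 := LinearMap.toMatrix_mulVec_repr b₀ b₀ ((torsResidual W p hΔ).ρ σ) P
    have h2 := LinearMap.toMatrix_mulVec_repr bk bk (ρbar.ρ σ) (vec P)
    rw [hb₀] at h1
    rw [hbk] at h2
    have h3 : ∀ Q, ∀ j, bk.repr (vec Q) j = ψ (b₀.repr Q j) := fun Q j => by
      show bk.repr (∑ l, ψ (b₀.repr Q l) • bk l) j = _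
      rw [Module.Basis.repr_sum_self]
    rw [h3, ← congrFun h1 i, ← congrFun h2 i]
    simp only [Matrix.mulVec, dotProduct, map_sum, map_mul, h3, baseMat, ψ]
    rfl
  let j : Submodule.torsionBy ℤ (Pts W) (p : ℤ) →+ ρ.V ⧸ S := S.mkQ.toAddMonoidHom.comp vec
  have hinj : Function.Injective j := by
    refine (injective_iff_map_eq_zero j).2 fun P hP => ?_
    have hS' : S = ⊥ := by rw [hS, Submodule.bot_smul]
    have hP0 : (show ρ.V from vec P) ∈ (⊥ : Submodule k ρ.V) :=
      hS' ▸ (Submodule.Quotient.mk_eq_zero S).1 hP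
    have hP' : vec P = 0 := (Submodule.mem_bot k).1 hP0
    have key : ∀ Q : (torsResidual W p hΔ).V, vec Q = 0 → Q = 0 := fun Q hQ => by
      refine b₀.ext_elem fun i => ψ.injective ?_
      have h1 : bk.repr (vec Q) i = ψ (b₀.repr Q i) := by
        show bk.repr (∑ l, ψ (b₀.repr Q l) • bk l) i = _
        rw [Module.Basis.repr_sum_self]
      rw [← h1, hQ]
      simp
    exact key P hP'
  exact not_hasFlatModel_tors W hΔ hW hp35 hmul hv (hmodel.of_injective j (fun σ P => by
    show S.mkQ (vec (σ • P)) = Submodule.Quotient.mk (ρ.ρ σ (vec P))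
    rw [show (σ • P) = (torsResidual W p hΔ).ρ σ P from rfl, hvec]
    rfl) hinj)

end Fermat.Agent.R59
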