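import Fermat.Agent.LL.Frey.Coeff
import Fermat.Agent.GalRep.EigenChar
import Fermat.Agent.S22
import Fermat.Agent.Galois.Places
import Fermat.Agent.GD.Local.Bridge
import Fermat.Prelude.Def_CuspForm_HeckeAlgebra
import Fermat.Prelude.Def_FLTPrelim_Modularity

/-!
# S59, unit E: coefficients carrying the system of an eigenform congruent modulo `p`

The algebraic integers are embedded in an algebraic closure of `ℚ_p` so that the given maximal
ideal goes to the open unit ball; `O` is the valuation ring of the field of the values of the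
character and of the roots of unity of order `p (p² - 1)`.
-/

set_option autoImplicit false
set_option linter.style.haveILetI false
set_option linter.unusedSectionVars false

noncomputable section

open IsLocalRing CongruenceSubgroup ModularFormClass
open scoped Pointwise NNReal

namespace Fermat.Agent.R59

local notation "Qb" => AlgebraicClosure ℚ

/-- A maximal ideal of the algebraic integers goes into the unit ball of some embedding. -/
theorem exists_padic_hom {p : ℕ} [Fact p.Prime] (𝔪 : Ideal (integralClosure ℤ ℂ)) (h𝔪 : 𝔪.IsMaximal)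
    (hp𝔪 : (p : integralClosure ℤ ℂ) ∈ 𝔪) :
    ∃ η : integralClosure ℤ ℂ →+* PadicAlgCl p, ∀ x ∈ 𝔪, ‖η x‖₊ < 1 := by
  classical
  have hp : p.Prime := Fact.out
  haveI : Algebra.IsIntegral ℤ (integralClosure ℤ ℂ) := inferInstance
  haveI : Algebra.IsAlgebraic ℤ (integralClosure ℤ ℂ) := Algebra.IsIntegral.isAlgebraic
  let j : integralClosure ℤ ℂ →+* Qb :=
    (IsAlgClosed.lift : integralClosure ℤ ℂ →ₐ[ℤ] Qb).toRingHom
  have hj : Function.Injective j := by
    rw [RingHom.injective_iff_ker_eq_bot]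
    refine Ideal.eq_bot_of_comap_eq_bot (R := ℤ) ?_
    rw [RingHom.comap_ker,
      show j.comp (algebraMap ℤ (integralClosure ℤ ℂ)) = Int.castRingHom Qb from RingHom.ext_int _ _,
      ← RingHom.injective_iff_ker_eq_bot]
    exact Int.cast_injective
  let e : integralClosure ℤ ℂ ≃+* j.range :=
    RingEquiv.ofBijective j.rangeRestrict
      ⟨fun x y h => hj (congrArg Subtype.val h), j.rangeRestrict_surjective⟩
  obtain ⟨A, -, hA⟩ := Ideal.image_subset_nonunits_valuationSubring
    (𝔪.comap e.symm.toRingHom) (Ideal.comap_ne_top _ h𝔪.ne_top)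
  have hnon : ∀ x ∈ 𝔪, j x ∈ A.nonunits := fun x hx => hA ⟨e x, by
    show e.symm (e x) ∈ 𝔪
    rwa [RingEquiv.symm_apply_apply], rfl⟩
  have hAp : A.LiesOverPrime p := by
    show (p : Qb) ∈ A.nonunits
    rw [← map_natCast j]
    exact hnon _ hp𝔪
  obtain ⟨g, hg⟩ := Galois.exists_smul_eq_of_liesOverPrime hp hAp
    (GD.placeAt_liesOverPrime ⟨p, hp⟩)
  refine ⟨((padicEmbedding p).toRingHom.comp g.toRingEquiv.toRingHom).comp j, fun x hx => ?_⟩
  have h1 : g (j x) ∈ (padicPlace p).nonunits := by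
    show g (j x) ∈ (padicPlace ((⟨p, hp⟩ : Nat.Primes) : ℕ)).nonunits
    rw [show padicPlace ((⟨p, hp⟩ : Nat.Primes) : ℕ) = g • A from hg]
    exact (Galois.mem_nonunits_smul_iff g A (j x)).mpr (hnon x hx)
  show ‖padicEmbedding p (g (j x))‖₊ < 1
  rcases eq_or_ne (g (j x)) 0 with h0 | h0
  · rw [h0, map_zero, nnnorm_zero]; exact zero_lt_one
  refine lt_of_not_ge fun hle => ?_
  have hinv : (g (j x))⁻¹ ∈ padicPlace p := by
    rw [mem_padicPlace_iff, map_inv₀, nnnorm_inv]
    exact inv_le_one_of_one_le₀ hle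
  have hv := ((padicPlace p).valuation_le_one_iff _).mpr hinv
  rw [ValuationSubring.mem_nonunits_iff] at h1
  rw [map_inv₀, inv_le_one₀ (zero_lt_iff.mpr ((_root_.map_ne_zero _).mpr h0))] at hv
  exact not_lt.mpr hv h1

/-- **The coefficients.** A complete discrete valuation ring, finite over `ℤ_p`, with a character
of the Hecke algebra lifting the residual system of the eigenform, and a root of unity of order
`p² - 1` in the residue field. -/
theorem exists_coeff_point {p : ℕ} [Fact p.Prime] (_hp2 : p ≠ 2) {M : ℕ} [NeZero M]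
    {f : CuspForm (Gamma0 M) 2} (hf : f.IsNormalizedEigenform) (𝔪 : Ideal (integralClosure ℤ ℂ))
    (h𝔪 : 𝔪.IsMaximal) (hp𝔪 : (p : integralClosure ℤ ℂ) ∈ 𝔪) :
    ∃ (O : Type) (_ : CommRing O) (_ : IsDomain O) (_ : IsDiscreteValuationRing O)
      (_ : IsAdicComplete (maximalIdeal O) O) (_ : Finite (ResidueField O))
      (_ : Algebra ℤ_[p] O) (_ : Module.Finite ℤ_[p] O) (_ : CharZero O)
      (χ : CuspForm.heckeAlgebra M 2 (∅ : Set ℕ) →+* O),
      CharP (ResidueField O) p ∧ (∃ g : ResidueField O, IsPrimitiveRoot g (p ^ 2 - 1)) ∧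
      ∀ (l : ℕ) (hl : l.Prime) (hlM : ¬ l ∣ M) (hlS : l ∉ (∅ : Set ℕ)) (b : ℤ),
        (∃ a : integralClosure ℤ ℂ, (a : ℂ) = qCoeff ⇑f l ∧ a - (b : integralClosure ℤ ℂ) ∈ 𝔪) →
        residue O (χ (CuspForm.heckeAlgebra.T hl hlM hlS)) = (b : ResidueField O) := by
  classical
  have hp : p.Prime := Fact.out
  obtain ⟨χf, hχf⟩ := GalRep.exists_eigenCharacter hf (∅ : Set ℕ)
  obtain ⟨η, hη⟩ := exists_padic_hom (p := p) 𝔪 h𝔪 hp𝔪
  haveI : Module.Finite ℤ (CuspForm.heckeAlgebra M 2 (∅ : Set ℕ)) :=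
    Fermat.Agent.S22.result M 2 _
  obtain ⟨d, s, hs⟩ := Module.Finite.exists_fin (R := ℤ) (M := CuspForm.heckeAlgebra M 2 (∅ : Set ℕ))
  set m := p ^ 2 - 1 with hm
  have hm0 : 0 < m := by
    have : 2 ^ 2 ≤ p ^ 2 := Nat.pow_le_pow_left hp.two_le 2
    omega
  haveI : NeZero (p * m) := ⟨Nat.mul_ne_zero hp.ne_zero hm0.ne'⟩
  obtain ⟨z, hz⟩ := HasEnoughRootsOfUnity.exists_primitiveRoot (PadicAlgCl p) (p * m)
  set gens : Set (PadicAlgCl p) := insert z (Set.range fun i => η (χf (s i))) with hgens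
  let K := IntermediateField.adjoin ℚ_[p] gens
  haveI : FiniteDimensional ℚ_[p] K :=
    IntermediateField.finiteDimensional_adjoin fun x _ => Algebra.IsIntegral.isIntegral x
  haveI : CharZero K := charZero_of_injective_algebraMap (algebraMap ℚ_[p] K).injective
  let R := integralClosure ℤ_[p] K
  haveI : IsScalarTower ℤ_[p] ℚ_[p] K := IsScalarTower.of_algebraMap_eq fun _ => rfl
  haveI : IsIntegralClosure R ℤ_[p] K := integralClosure.isIntegralClosure _ _
  haveI : IsIntegrallyClosed R := integralClosure.isIntegrallyClosedOfFiniteExtension ℚ_[p]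
  haveI : Module.Finite ℤ_[p] R := IsIntegralClosure.finite ℤ_[p] ℚ_[p] K R
  haveI : Finite (ResidueField ℤ_[p]) := Finite.of_equiv (ZMod p) PadicInt.residueField.toEquiv.symm
  have hinj : Function.Injective (algebraMap ℤ_[p] R) := fun a b hab => by
    have h2 : algebraMap ℤ_[p] K a = algebraMap ℤ_[p] K b := congrArg (fun x : R => (x : K)) hab
    rw [IsScalarTower.algebraMap_apply ℤ_[p] ℚ_[p] K, IsScalarTower.algebraMap_apply ℤ_[p] ℚ_[p] K] at h2
    exact (IsFractionRing.injective ℤ_[p] ℚ_[p]) ((algebraMap ℚ_[p] K).injective h2)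
  obtain ⟨hloc, hlh, hdvr, hcompl, hfin⟩ := GalRep.isDiscreteValuationRing_finite ℤ_[p] (R := R) hinj
  haveI := hloc
  haveI := hlh
  haveI : CharZero R := charZero_of_injective_algebraMap hinj
  haveI hchar : CharP (ResidueField R) p := by
    refine (CharP.charP_iff_prime_eq_zero hp).mpr ?_
    rw [← map_natCast (residue R), residue_eq_zero_iff, ← map_natCast (algebraMap ℤ_[p] R)]
    exact map_nonunit (algebraMap ℤ_[p] R) _ PadicInt.p_nonunit
  let ι : R →+* PadicAlgCl p := (algebraMap K (PadicAlgCl p)).comp (algebraMap R K)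
  -- integral elements of `K` lie in the unit ball
  have hball : ∀ x : R, ‖ι x‖₊ ≤ 1 := fun x => by
    show ‖((x : K) : PadicAlgCl p)‖₊ ≤ 1
    have hx : _root_.IsIntegral ℤ_[p] ((x : K) : PadicAlgCl p) :=
      (x.2 : _root_.IsIntegral ℤ_[p] (x : K)).map (K.val.restrictScalars ℤ_[p])
    obtain ⟨P, hP, hPx⟩ := hx
    have hmem : ∀ a : ℤ_[p], algebraMap ℤ_[p] (PadicAlgCl p) a ∈ padicIntegers p := fun a => by
      rw [mem_padicIntegers_iff, IsScalarTower.algebraMap_apply ℤ_[p] ℚ_[p] (PadicAlgCl p),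
        ← NNReal.coe_le_coe, coe_nnnorm, PadicAlgCl.norm_extends]
      exact PadicInt.norm_le_one a
    let φ : ℤ_[p] →+* padicIntegers p :=
      (algebraMap ℤ_[p] (PadicAlgCl p)).codRestrict (padicIntegers p).toSubring hmem
    have h : _root_.IsIntegral (padicIntegers p) ((x : K) : PadicAlgCl p) :=
      ⟨P.map φ, hP.map φ, by rw [Polynomial.eval₂_map]; exact hPx⟩
    obtain ⟨y, hy⟩ := IsIntegrallyClosed.isIntegral_iff.mp h
    rw [← hy]
    exact (mem_padicIntegers_iff p).mp y.2
  -- hence the open ball is in the maximal ideal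
  have hmax : ∀ x : R, ‖ι x‖₊ < 1 → x ∈ maximalIdeal R := fun x hx => by
    rw [mem_maximalIdeal, mem_nonunits_iff]
    rintro hu
    obtain ⟨y, hy⟩ := hu.exists_right_inv
    have h1 : ‖ι x * ι y‖₊ = 1 := by
      rw [← map_mul, hy, map_one, nnnorm_one]
    rw [nnnorm_mul] at h1
    exact absurd h1 (ne_of_lt (lt_of_le_of_lt (mul_le_of_le_one_right' (hball y)) hx))
  -- the character
  have hmemK : ∀ t, η (χf t) ∈ K := fun t => by
    have ht : t ∈ Submodule.span ℤ (Set.range s) := by rw [hs]; trivial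
    induction ht using Submodule.span_induction with
    | mem t ht =>
      obtain ⟨i, rfl⟩ := ht
      exact IntermediateField.subset_adjoin _ _ (Or.inr ⟨i, rfl⟩)
    | zero => simp [zero_mem K]
    | add a b _ _ ha hb => rw [map_add, map_add]; exact add_mem ha hb
    | smul c a _ ha => rw [map_zsmul, map_zsmul]; exact zsmul_mem ha c
  have hintR : ∀ (x : integralClosure ℤ ℂ) (hx : η x ∈ K),
      (⟨η x, hx⟩ : K) ∈ integralClosure ℤ_[p] K := fun x hx => by
    refine (isIntegral_algHom_iff (K.val.restrictScalars ℤ_[p]) Subtype.val_injective).mp ?_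
    exact ((Algebra.IsIntegral.isIntegral (R := ℤ) x).map η.toIntAlgHom).tower_top
  let χ : CuspForm.heckeAlgebra M 2 (∅ : Set ℕ) →+* R :=
    (((η.comp χf).codRestrict K.toSubalgebra.toSubring hmemK).codRestrict
      (integralClosure ℤ_[p] K).toSubring fun t => hintR (χf t) (hmemK t))
  have hzint : (⟨z, IntermediateField.subset_adjoin _ _ (Or.inl rfl)⟩ : K) ∈ integralClosure ℤ_[p] K :=
    ⟨Polynomial.X ^ (p * m) - 1, Polynomial.monic_X_pow_sub_C 1 (NeZero.ne _), by
      simp only [Polynomial.eval₂_sub, Polynomial.eval₂_X_pow, Polynomial.eval₂_one]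
      rw [sub_eq_zero]
      exact Subtype.ext hz.pow_eq_one⟩
  let zR : R := ⟨_, hzint⟩
  have hzR : IsPrimitiveRoot zR (p * m) :=
    hz.of_map_of_injective (f := K.val.toRingHom.comp R.val.toRingHom)
      (Subtype.val_injective.comp Subtype.val_injective)
  have hg : IsPrimitiveRoot (zR ^ p) m := hzR.pow (Nat.pos_of_ne_zero (NeZero.ne _)) rfl
  refine ⟨R, inferInstance, inferInstance, hdvr, hcompl, hfin, inferInstance, inferInstance,
    inferInstance, χ, hchar, ⟨residue R (zR ^ p), ?_⟩, fun l hl hlM hlS b ⟨a, ha, hab⟩ => ?_⟩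
  · haveI : NeZero (m : ResidueField R) := ⟨fun h => by
      rw [CharP.cast_eq_zero_iff (ResidueField R) p] at h
      have h' : p ∣ p ^ 2 - m := Nat.dvd_sub (dvd_pow_self p two_ne_zero) h
      rw [show p ^ 2 - m = 1 by omega] at h'
      exact hp.not_dvd_one h'⟩
    have hcyc : (Polynomial.cyclotomic m R).IsRoot (zR ^ p) := hg.isRoot_cyclotomic hm0
    rw [← Polynomial.isRoot_cyclotomic_iff, ← Polynomial.map_cyclotomic m (residue R)]
    exact hcyc.map
  · have he : χf (CuspForm.heckeAlgebra.T hl hlM hlS) = a :=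
      Subtype.ext ((hχf l hl hlM hlS).trans ha.symm)
    rw [← sub_eq_zero, ← map_intCast (residue R), ← map_sub, residue_eq_zero_iff]
    refine hmax _ ?_
    have hval : ι (χ (CuspForm.heckeAlgebra.T hl hlM hlS) - (b : R)) =
        η (a - (b : integralClosure ℤ ℂ)) := by
      rw [map_sub, map_sub, map_intCast, map_intCast, ← he]
      rfl
    rw [hval]
    exact hη _ hab

end Fermat.Agent.R59
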